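import Mathlib
import Fermat.Agent.H53.S14T.Interfaces

/-!
# P-S14, block T, subtask T-E0: power basis of `ιK(z)` (helper87)
-/

set_option autoImplicit false

open Polynomial

namespace Fermat.Agent.H87

/-- **T-E0**: if `z` is a root of a monic polynomial of degree `p` over `ι K`, every element of
the field generated by `ι K` and `z` is a `ι K`-combination of `1, z, …, z^(p-1)`. -/
theorem spanStatement : Fermat.Agent.H53.SpanStatement := by
  intro p K _ _ ι z f hf hdeg hroot y hy
  let _ : Algebra K (AlgebraicClosure ℚ) := (ι : K →+* AlgebraicClosure ℚ).toAlgebra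
  have : IsScalarTower ℚ K (AlgebraicClosure ℚ) :=
    IsScalarTower.of_algebraMap_eq fun q => (ι.commutes q).symm
  have hamap : ∀ c : K, algebraMap K (AlgebraicClosure ℚ) c = ι c := fun _ => rfl
  -- `z` is integral over `K`
  have haeval : aeval z f = 0 := by
    rw [aeval_def]
    exact hroot
  have hint : IsIntegral K z := ⟨f, hf, hroot⟩
  -- the field generated over `ℚ` is contained in `K⟮z⟯`
  have hle : IntermediateField.adjoin ℚ (Set.range ι ∪ {z}) ≤
      (IntermediateField.adjoin K {z}).restrictScalars ℚ := by
    rw [IntermediateField.adjoin_le_iff]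
    rintro x (⟨c, rfl⟩ | hx)
    · exact (IntermediateField.adjoin K {z}).algebraMap_mem c
    · rw [Set.mem_singleton_iff] at hx
      subst hx
      exact IntermediateField.mem_adjoin_simple_self K x
  have hy' : y ∈ IntermediateField.adjoin K {z} := hle hy
  have hy'' : y ∈ Algebra.adjoin K {z} := by
    rw [← IntermediateField.adjoin_simple_toSubalgebra_of_isAlgebraic hint.isAlgebraic]
    exact hy'
  rw [Algebra.adjoin_singleton_eq_range_aeval] at hy''
  obtain ⟨g, rfl⟩ := hy''
  -- reduce modulo `f`
  have hf1 : f ≠ 1 := by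
    rintro rfl
    simp at hroot
  have hlt : (g %ₘ f).natDegree < p := by
    rw [← hdeg]
    exact natDegree_modByMonic_lt g hf hf1
  have hmod : aeval z g = aeval z (g %ₘ f) := by
    conv_lhs => rw [← modByMonic_add_div g f]
    rw [map_add, map_mul, haeval, zero_mul, add_zero]
  refine ⟨fun i => (g %ₘ f).coeff i, ?_⟩
  rw [AlgHom.toRingHom_eq_coe, RingHom.coe_coe] at *
  rw [hmod, aeval_eq_sum_range' hlt]
  refine Finset.sum_congr rfl fun i _ => ?_
  rw [Algebra.smul_def, hamap]

end Fermat.Agent.H87
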