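import Mathlib
import Fermat.Agent.H13.S14Interfaces

/-!
# P-S14, block C3 (Thaine): the final combinatorial step (helper87)

`ThaineElementStatement` is the output of the `K(ζ_ℓ)/K` argument (Hilbert 90 + ramification):
an element `γ ≠ 0` of `𝓞 K` and an integer `s` such that the valuation of `γ` at every prime not
above `ℓ` is divisible by `p`, and at every prime `Q` above `ℓ` one has
`1 - ζ ≡ s ^ v_Q(γ)` modulo `Q`.  We show that it implies `Fermat.Agent.H13.ThaineStatement`.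
-/

set_option autoImplicit false

open scoped NumberField nonZeroDivisors Pointwise
open Fermat.Agent.H13 UniqueFactorizationMonoid

namespace Fermat.Agent.H87

/-- Output of the `K(ζ_ℓ)/K` argument. -/
def ThaineElementStatement : Prop :=
  ∀ (p : ℕ) [Fact p.Prime] (_ : 5 ≤ p) (K : Type) [Field K] [NumberField K]
    [IsCyclotomicExtension {p} ℚ K] (ζ : K) (hζ : IsPrimitiveRoot ζ p)
    (P : (Ideal (𝓞 K))⁰), IsDegOnePrime p P →
    ∃ (s : ℤ) (γ : 𝓞 K), γ ≠ 0 ∧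
      ∀ (Q : Ideal (𝓞 K)), Q.IsPrime → Q ≠ ⊥ → ∀ r : ℕ, γ ∈ Q ^ r → γ ∉ Q ^ (r + 1) →
        ((((Ideal.absNorm (P : Ideal (𝓞 K)) : ℕ) : 𝓞 K) ∉ Q → p ∣ r) ∧
         (((Ideal.absNorm (P : Ideal (𝓞 K)) : ℕ) : 𝓞 K) ∈ Q →
            (1 - hζ.toInteger) - (s : 𝓞 K) ^ r ∈ Q))

/-- In a degree-one prime, every integer of `K` is congruent to a rational integer. -/
theorem exists_int_sub_mem {K : Type} [Field K] [NumberField K] (P : Ideal (𝓞 K))
    (hP : (Ideal.absNorm P).Prime) (x : 𝓞 K) : ∃ n : ℤ, x - (n : 𝓞 K) ∈ P := by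
  have hcard : Nat.card (𝓞 K ⧸ P) = Ideal.absNorm P := by
    rw [Ideal.absNorm_apply, Submodule.cardQuot_apply]
  have : Fact (Ideal.absNorm P).Prime := ⟨hP⟩
  have h1 : (1 : 𝓞 K ⧸ P) ≠ 0 := by
    intro h
    have : Nat.card (𝓞 K ⧸ P) = 1 := by
      have : Subsingleton (𝓞 K ⧸ P) := subsingleton_of_zero_eq_one h.symm
      exact Nat.card_unique
    rw [hcard] at this
    exact hP.one_lt.ne' this
  have hx : Ideal.Quotient.mk P x ∈ AddSubgroup.zmultiples (1 : 𝓞 K ⧸ P) :=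
    mem_zmultiples_of_prime_card hcard h1
  obtain ⟨n, hn⟩ := AddSubgroup.mem_zmultiples_iff.mp hx
  refine ⟨n, ?_⟩
  rw [← Ideal.Quotient.eq_zero_iff_mem, map_sub, ← hn]
  simp

section ClassGroupProduct

variable {p : ℕ} {K : Type} [Field K] [NumberField K]

/-- The value of a class group character on an ideal (`1` on the zero ideal). -/
noncomputable def phiI (φ : ClassGroup (𝓞 K) →* Multiplicative (ZMod p)) (I : Ideal (𝓞 K)) :
    Multiplicative (ZMod p) :=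
  if h : I ≠ ⊥ then φ (ClassGroup.mk0 ⟨I, mem_nonZeroDivisors_of_ne_zero h⟩) else 1

theorem phiI_of_ne (φ : ClassGroup (𝓞 K) →* Multiplicative (ZMod p)) {I : Ideal (𝓞 K)}
    (h : I ≠ ⊥) : phiI φ I = φ (ClassGroup.mk0 ⟨I, mem_nonZeroDivisors_of_ne_zero h⟩) :=
  dif_pos h

theorem phiI_coe (φ : ClassGroup (𝓞 K) →* Multiplicative (ZMod p)) (I : (Ideal (𝓞 K))⁰) :
    phiI φ (I : Ideal (𝓞 K)) = φ (ClassGroup.mk0 I) := by
  rw [phiI_of_ne φ (nonZeroDivisors.coe_ne_zero I)]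

theorem phiI_mul (φ : ClassGroup (𝓞 K) →* Multiplicative (ZMod p)) {I J : Ideal (𝓞 K)}
    (hI : I ≠ ⊥) (hJ : J ≠ ⊥) : phiI φ (I * J) = phiI φ I * phiI φ J := by
  have hIJ : I * J ≠ ⊥ := mul_ne_zero hI hJ
  rw [phiI_of_ne φ hI, phiI_of_ne φ hJ, phiI_of_ne φ hIJ, ← map_mul, ← map_mul]
  rfl

theorem phiI_one (φ : ClassGroup (𝓞 K) →* Multiplicative (ZMod p)) :
    phiI φ (1 : Ideal (𝓞 K)) = 1 := by
  have h1 : (1 : Ideal (𝓞 K)) ≠ ⊥ := one_ne_zero
  rw [phiI_of_ne φ h1]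
  have : (⟨(1 : Ideal (𝓞 K)), mem_nonZeroDivisors_of_ne_zero h1⟩ : (Ideal (𝓞 K))⁰) = 1 := rfl
  rw [this, map_one, map_one]

theorem phiI_multiset_prod (φ : ClassGroup (𝓞 K) →* Multiplicative (ZMod p))
    (s : Multiset (Ideal (𝓞 K))) (hs : ∀ Q ∈ s, Q ≠ ⊥) :
    phiI φ s.prod = (s.map (phiI φ)).prod := by
  induction s using Multiset.induction_on with
  | empty => simpa using phiI_one φ
  | cons a s ih =>
    have ha : a ≠ ⊥ := hs a (Multiset.mem_cons_self a s)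
    have hs' : ∀ Q ∈ s, Q ≠ ⊥ := fun Q hQ => hs Q (Multiset.mem_cons_of_mem hQ)
    have hprod : s.prod ≠ ⊥ := by
      rw [Ne, ← Ideal.zero_eq_bot, Multiset.prod_eq_zero_iff]
      intro h0
      exact hs' _ h0 rfl
    rw [Multiset.prod_cons, Multiset.map_cons, Multiset.prod_cons, phiI_mul φ ha hprod, ih hs']

theorem phiI_span_singleton (φ : ClassGroup (𝓞 K) →* Multiplicative (ZMod p)) {γ : 𝓞 K}
    (hγ : γ ≠ 0) : phiI φ (Ideal.span {γ}) = 1 := by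
  have h : Ideal.span {γ} ≠ ⊥ := by
    rwa [Ne, Ideal.span_singleton_eq_bot]
  rw [phiI_of_ne φ h]
  have : ClassGroup.mk0 ⟨Ideal.span {γ}, mem_nonZeroDivisors_of_ne_zero h⟩ = 1 := by
    rw [ClassGroup.mk0_eq_one_iff]
    exact ⟨⟨γ, rfl⟩⟩
  rw [this, map_one]

/-- The product formula: the values of `φ` on the prime factors of a principal ideal multiply
to `1`. -/
theorem prod_phiI_factors (φ : ClassGroup (𝓞 K) →* Multiplicative (ZMod p)) {γ : 𝓞 K}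
    (hγ : γ ≠ 0) [DecidableEq (Ideal (𝓞 K))] :
    ∏ Q ∈ (normalizedFactors (Ideal.span {γ})).toFinset,
      phiI φ Q ^ (normalizedFactors (Ideal.span {γ})).count Q = 1 := by
  have h : Ideal.span {γ} ≠ ⊥ := by
    rwa [Ne, Ideal.span_singleton_eq_bot]
  have h1 := phiI_multiset_prod φ (normalizedFactors (Ideal.span {γ}))
    (fun Q hQ => ne_zero_of_mem_normalizedFactors hQ)
  rw [Ideal.prod_normalizedFactors_eq_self h, phiI_span_singleton φ hγ] at h1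
  rw [← Finset.prod_multiset_map_count]
  exact h1.symm

/-- The multiplicity of a prime in a principal ideal, in terms of membership. -/
theorem mem_pow_count {γ : 𝓞 K} (hγ : γ ≠ 0) {Q : Ideal (𝓞 K)} (hQ : Q.IsPrime) (hQ0 : Q ≠ ⊥)
    [DecidableEq (Ideal (𝓞 K))] :
    γ ∈ Q ^ (normalizedFactors (Ideal.span {γ})).count Q ∧
      γ ∉ Q ^ ((normalizedFactors (Ideal.span {γ})).count Q + 1) := by
  have h : Ideal.span {γ} ≠ 0 := by
    rwa [Ne, Ideal.zero_eq_bot, Ideal.span_singleton_eq_bot]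
  have hirr : Irreducible Q := (Ideal.prime_of_isPrime hQ0 hQ).irreducible
  have key : ∀ n : ℕ, γ ∈ Q ^ n ↔ n ≤ (normalizedFactors (Ideal.span {γ})).count Q := by
    intro n
    rw [← Ideal.span_singleton_le_iff_mem, ← Ideal.dvd_iff_le, pow_dvd_iff_le_emultiplicity,
      emultiplicity_eq_count_normalizedFactors hirr h, normalize_eq, Nat.cast_le]
  exact ⟨(key _).2 le_rfl, fun h' => absurd ((key _).1 h') (by omega)⟩

end ClassGroupProduct

section Galois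

variable {p : ℕ} [hp : Fact p.Prime] {K : Type} [Field K] [NumberField K]
  [IsCyclotomicExtension {p} ℚ K]

local instance neZero_p : NeZero p := ⟨hp.out.ne_zero⟩

/-- The exponent of a Galois automorphism on `p`-th roots of unity. -/
noncomputable def kap (p : ℕ) [Fact p.Prime] {K : Type} [Field K] [NumberField K]
    [IsCyclotomicExtension {p} ℚ K] (σ : K ≃ₐ[ℚ] K) : ℕ :=
  haveI : NeZero p := ⟨(Fact.out : p.Prime).ne_zero⟩
  ((IsCyclotomicExtension.Rat.galEquivZMod p K σ : (ZMod p)ˣ) : ZMod p).val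

theorem sigma_zeta (σ : K ≃ₐ[ℚ] K) {ζ : K} (hζ : IsPrimitiveRoot ζ p) : σ ζ = ζ ^ kap p σ :=
  IsCyclotomicExtension.Rat.galEquivZMod_apply_of_pow_eq p K σ hζ.pow_eq_one

theorem kap_cast (σ : K ≃ₐ[ℚ] K) :
    ((kap p σ : ℕ) : ZMod p) = (IsCyclotomicExtension.Rat.galEquivZMod p K σ : (ZMod p)ˣ) := by
  rw [kap, ZMod.natCast_val, ZMod.cast_id]

theorem sigmaO_toInteger (σ : K ≃ₐ[ℚ] K) {ζ : K} (hζ : IsPrimitiveRoot ζ p) :
    sigmaO K σ hζ.toInteger = hζ.toInteger ^ kap p σ := by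
  apply NumberField.RingOfIntegers.ext
  rw [coe_sigmaO]
  have h1 : ((hζ.toInteger : 𝓞 K) : K) = ζ := rfl
  have h2 : ((hζ.toInteger ^ kap p σ : 𝓞 K) : K) = ((hζ.toInteger : 𝓞 K) : K) ^ kap p σ :=
    map_pow (algebraMap (𝓞 K) K) _ _
  rw [h2, h1]
  exact sigma_zeta σ hζ

/-- The value of a character of type `ω²` on a conjugate of `P`. -/
theorem phiI_map_sigma {ζ : K} (hζ : IsPrimitiveRoot ζ p)
    (φ : ClassGroup (𝓞 K) →* Multiplicative (ZMod p)) (hφ : IsOmegaSqChar p ζ φ)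
    (P : (Ideal (𝓞 K))⁰) (σ : K ≃ₐ[ℚ] K) :
    phiI φ (Ideal.map (sigmaO K σ : 𝓞 K →+* 𝓞 K) (P : Ideal (𝓞 K))) =
      φ (ClassGroup.mk0 P) ^ (kap p σ ^ 2) := by
  rw [← hφ σ (kap p σ) (sigma_zeta σ hζ), sigmaCl_mk0, ← phiI_coe, Ideal.coe_mapNonZero]

omit [IsCyclotomicExtension {p} ℚ K] in
/-- `p` does not lie in a prime whose norm is a prime different from `p`. -/
theorem natCast_p_notMem (P : Ideal (𝓞 K)) (hP : P.IsPrime)
    (hℓ : (Ideal.absNorm P).Prime) (hne : Ideal.absNorm P ≠ p) : ((p : ℕ) : 𝓞 K) ∉ P := by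
  intro hmem
  have hℓmem : ((Ideal.absNorm P : ℕ) : 𝓞 K) ∈ P := Ideal.absNorm_mem P
  have hcop : Nat.Coprime p (Ideal.absNorm P) :=
    (Nat.coprime_primes hp.out hℓ).2 (Ne.symm hne)
  obtain ⟨a, b, hab⟩ : ∃ a b : ℤ, a * p + b * (Ideal.absNorm P : ℕ) = 1 := by
    have := Nat.isCoprime_iff_coprime.mpr hcop
    obtain ⟨a, b, h⟩ := this
    exact ⟨a, b, h⟩
  have h1 : (1 : 𝓞 K) ∈ P := by
    have e : (1 : 𝓞 K) = (a : 𝓞 K) * ((p : ℕ) : 𝓞 K) +
        (b : 𝓞 K) * ((Ideal.absNorm P : ℕ) : 𝓞 K) := by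
      have := congrArg (Int.cast : ℤ → 𝓞 K) hab
      push_cast at this
      exact this.symm
    rw [e]
    exact P.add_mem (P.mul_mem_left _ hmem) (P.mul_mem_left _ hℓmem)
  exact hP.ne_top ((Ideal.eq_top_iff_one P).2 h1)

/-- `1 - ζ` does not lie in a prime whose norm is a prime different from `p`. -/
theorem one_sub_zeta_notMem {ζ : K} (hζ : IsPrimitiveRoot ζ p) (P : Ideal (𝓞 K)) (hP : P.IsPrime)
    (hℓ : (Ideal.absNorm P).Prime) (hne : Ideal.absNorm P ≠ p) : 1 - hζ.toInteger ∉ P := by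
  intro hmem
  have h1 : hζ.toInteger - 1 ∈ P := by
    have := P.neg_mem hmem
    simpa using this
  exact natCast_p_notMem P hP hℓ hne (Ideal.mem_of_dvd P hζ.toInteger_sub_one_dvd_prime' h1)

/-- A prime of degree one not above `p` has trivial decomposition group. -/
theorem eq_one_of_map_eq {ζ : K} (hζ : IsPrimitiveRoot ζ p) (P : Ideal (𝓞 K)) (hP : P.IsPrime)
    (hℓ : (Ideal.absNorm P).Prime) (hne : Ideal.absNorm P ≠ p) (σ : K ≃ₐ[ℚ] K)
    (hσ : Ideal.map (sigmaO K σ : 𝓞 K →+* 𝓞 K) P = P) : σ = 1 := by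
  have hpP : ((p : ℕ) : 𝓞 K) ∉ P := natCast_p_notMem P hP hℓ hne
  -- `σ ζ - ζ ∈ P`
  obtain ⟨n, hn⟩ := exists_int_sub_mem P hℓ hζ.toInteger
  have h2 : sigmaO K σ (hζ.toInteger - (n : 𝓞 K)) ∈ P := by
    rw [← hσ]
    exact Ideal.mem_map_of_mem _ hn
  rw [map_sub, map_intCast, sigmaO_toInteger σ hζ] at h2
  have h3 : hζ.toInteger ^ kap p σ - hζ.toInteger ∈ P := by
    have := P.sub_mem h2 hn
    simpa using this
  -- conclude
  by_contra hne1
  have hk1 : ((kap p σ : ℕ) : ZMod p) ≠ 1 := by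
    intro h
    apply hne1
    apply (IsCyclotomicExtension.Rat.galEquivZMod p K).injective
    rw [map_one]
    apply Units.ext
    rw [← kap_cast, h]
    rfl
  have hk0 : ((kap p σ : ℕ) : ZMod p) ≠ 0 := by
    rw [kap_cast]
    exact Units.ne_zero _
  have hkpos : 0 < kap p σ := by
    rcases Nat.eq_zero_or_pos (kap p σ) with h | h
    · rw [h] at hk0
      simp at hk0
    · exact h
  have hcop : Nat.Coprime (kap p σ - 1) p := by
    rw [Nat.coprime_comm, Nat.Prime.coprime_iff_not_dvd hp.out]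
    intro hdvd
    apply hk1
    have : ((kap p σ - 1 : ℕ) : ZMod p) = 0 := (ZMod.natCast_eq_zero_iff _ _).2 hdvd
    rw [Nat.cast_sub hkpos, Nat.cast_one, sub_eq_zero] at this
    exact this
  have hμ : IsPrimitiveRoot (ζ ^ (kap p σ - 1)) p := hζ.pow_of_coprime _ hcop
  have hdvd := hμ.toInteger_sub_one_dvd_prime'
  have e1 : hμ.toInteger = hζ.toInteger ^ (kap p σ - 1) := by
    apply NumberField.RingOfIntegers.ext
    have h1 : ((hζ.toInteger : 𝓞 K) : K) = ζ := rfl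
    have h2 : ((hμ.toInteger : 𝓞 K) : K) = ζ ^ (kap p σ - 1) := rfl
    have h3 : ((hζ.toInteger ^ (kap p σ - 1) : 𝓞 K) : K) =
        ((hζ.toInteger : 𝓞 K) : K) ^ (kap p σ - 1) := map_pow (algebraMap (𝓞 K) K) _ _
    rw [h3, h1, h2]
  have h4 : hζ.toInteger ^ kap p σ - hζ.toInteger =
      hζ.toInteger * (hμ.toInteger - 1) := by
    rw [e1, mul_sub, mul_one, ← pow_succ', Nat.sub_add_cancel hkpos]
  rw [h4] at h3
  have h5 : hμ.toInteger - 1 ∈ P := by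
    rcases hP.mem_or_mem h3 with h | h
    · exfalso
      have hu : IsUnit hζ.toInteger := hζ.toInteger_isPrimitiveRoot.isUnit (NeZero.ne p)
      exact hP.ne_top (Ideal.eq_top_of_isUnit_mem P h hu)
    · exact h
  exact hpP (Ideal.mem_of_dvd P hdvd h5)

/-- Composition of the maps induced on ideals. -/
theorem map_sigmaO_mul (σ τ : K ≃ₐ[ℚ] K) (I : Ideal (𝓞 K)) :
    Ideal.map (sigmaO K (σ * τ) : 𝓞 K →+* 𝓞 K) I =
      Ideal.map (sigmaO K σ : 𝓞 K →+* 𝓞 K) (Ideal.map (sigmaO K τ : 𝓞 K →+* 𝓞 K) I) := by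
  rw [Ideal.map_map]
  rfl

theorem map_sigmaO_one (I : Ideal (𝓞 K)) :
    Ideal.map (sigmaO K (1 : K ≃ₐ[ℚ] K) : 𝓞 K →+* 𝓞 K) I = I := by
  have : (sigmaO K (1 : K ≃ₐ[ℚ] K) : 𝓞 K →+* 𝓞 K) = RingHom.id _ := by
    ext x
    rfl
  rw [this, Ideal.map_id]

theorem map_sigmaO_injective {ζ : K} (hζ : IsPrimitiveRoot ζ p) (P : Ideal (𝓞 K))
    (hP : P.IsPrime) (hℓ : (Ideal.absNorm P).Prime) (hne : Ideal.absNorm P ≠ p) :
    Function.Injective fun σ : K ≃ₐ[ℚ] K => Ideal.map (sigmaO K σ : 𝓞 K →+* 𝓞 K) P := by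
  intro σ τ h
  have h1 : Ideal.map (sigmaO K (τ⁻¹ * σ) : 𝓞 K →+* 𝓞 K) P = P := by
    rw [map_sigmaO_mul]
    have h' : Ideal.map (sigmaO K σ : 𝓞 K →+* 𝓞 K) P =
        Ideal.map (sigmaO K τ : 𝓞 K →+* 𝓞 K) P := h
    rw [h', ← map_sigmaO_mul, inv_mul_cancel, map_sigmaO_one]
  have h2 := eq_one_of_map_eq hζ P hP hℓ hne _ h1
  exact (inv_mul_eq_one.mp h2).symm

/-- Transitivity of the Galois action on the primes above `ℓ`. -/
theorem exists_map_sigmaO_eq {K : Type} [Field K] [NumberField K] [IsGalois ℚ K]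
    (P Q : Ideal (𝓞 K)) (hP : P.IsPrime) (hQ : Q.IsPrime)
    (hℓ : (Ideal.absNorm P).Prime) (hQℓ : ((Ideal.absNorm P : ℕ) : 𝓞 K) ∈ Q) :
    ∃ σ : K ≃ₐ[ℚ] K, Ideal.map (sigmaO K σ : 𝓞 K →+* 𝓞 K) P = Q := by
  have := hP
  have := hQ
  have : Fact (Ideal.absNorm P).Prime := ⟨hℓ⟩
  have hmax : (Ideal.span {((Ideal.absNorm P : ℕ) : ℤ)}).IsMaximal :=
    Int.ideal_span_isMaximal_of_prime (Ideal.absNorm P)
  have key : ∀ R : Ideal (𝓞 K), R.IsPrime → ((Ideal.absNorm P : ℕ) : 𝓞 K) ∈ R →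
      R.LiesOver (Ideal.span {((Ideal.absNorm P : ℕ) : ℤ)}) := by
    intro R hR hmem
    refine ⟨hmax.eq_of_le ?_ ?_⟩
    · exact (Ideal.IsPrime.under ℤ R).ne_top
    · rw [Ideal.span_singleton_le_iff_mem, Ideal.under_def, Ideal.mem_comap]
      simpa using hmem
  have := key P hP (Ideal.absNorm_mem P)
  have := key Q hQ hQℓ
  obtain ⟨σ, hσ⟩ := Ideal.exists_smul_eq_of_isGaloisGroup
    (Ideal.span {((Ideal.absNorm P : ℕ) : ℤ)}) P Q (K ≃ₐ[ℚ] K)
  refine ⟨σ, ?_⟩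
  rw [← hσ, Ideal.pointwise_smul_def]
  rfl

end Galois

section Reindex

variable {p : ℕ} [hp : Fact p.Prime]

theorem dvd_of_pow_eq_one {g : Multiplicative (ZMod p)} (hg : g ≠ 1) {n : ℕ} (h : g ^ n = 1) :
    p ∣ n := by
  have h1 : orderOf g ∣ n := orderOf_dvd_of_pow_eq_one h
  have h2 : orderOf g ∣ p := by
    have := orderOf_dvd_natCard g
    rwa [Nat.card_eq_fintype_card, Fintype.card_multiplicative, ZMod.card] at this
  rcases (Nat.dvd_prime hp.out).1 h2 with h3 | h3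
  · exact absurd (orderOf_eq_one_iff.1 h3) hg
  · rwa [h3] at h1

theorem pow_p_eq_one (g : Multiplicative (ZMod p)) : g ^ p = 1 := by
  have := pow_card_eq_one (x := g)
  rwa [Fintype.card_multiplicative, ZMod.card] at this

/-- Reindexing a product over `1 ≤ a < p` by the units of `ZMod p`. -/
theorem prod_Ico_eq_prod_units {M : Type*} [CommMonoid M] (F : ℕ → M) :
    ∏ a ∈ Finset.Ico 1 p, F a = ∏ x : (ZMod p)ˣ, F ((x : ZMod p).val) := by
  symm
  refine Finset.prod_bij (fun x _ => ((x : (ZMod p)ˣ) : ZMod p).val) ?_ ?_ ?_ ?_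
  · intro x _
    rw [Finset.mem_Ico]
    refine ⟨?_, ZMod.val_lt _⟩
    rw [Nat.one_le_iff_ne_zero, Ne, ZMod.val_eq_zero]
    exact Units.ne_zero x
  · intro x _ y _ h
    exact Units.ext (ZMod.val_injective p h)
  · intro a ha
    rw [Finset.mem_Ico] at ha
    have h0 : ((a : ℕ) : ZMod p) ≠ 0 := by
      rw [Ne, ZMod.natCast_eq_zero_iff]
      intro hdvd
      have := Nat.le_of_dvd (by omega) hdvd
      omega
    exact ⟨Units.mk0 _ h0, Finset.mem_univ _, ZMod.val_natCast_of_lt ha.2⟩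
  · intro x _
    rfl

/-- Reindexing a sum over `1 ≤ a < p` by the units of `ZMod p`. -/
theorem sum_Ico_eq_sum_units {M : Type*} [AddCommMonoid M] (F : ℕ → M) :
    ∑ a ∈ Finset.Ico 1 p, F a = ∑ x : (ZMod p)ˣ, F ((x : ZMod p).val) := by
  symm
  refine Finset.sum_bij (fun x _ => ((x : (ZMod p)ˣ) : ZMod p).val) ?_ ?_ ?_ ?_
  · intro x _
    rw [Finset.mem_Ico]
    refine ⟨?_, ZMod.val_lt _⟩
    rw [Nat.one_le_iff_ne_zero, Ne, ZMod.val_eq_zero]
    exact Units.ne_zero x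
  · intro x _ y _ h
    exact Units.ext (ZMod.val_injective p h)
  · intro a ha
    rw [Finset.mem_Ico] at ha
    have h0 : ((a : ℕ) : ZMod p) ≠ 0 := by
      rw [Ne, ZMod.natCast_eq_zero_iff]
      intro hdvd
      have := Nat.le_of_dvd (by omega) hdvd
      omega
    exact ⟨Units.mk0 _ h0, Finset.mem_univ _, ZMod.val_natCast_of_lt ha.2⟩
  · intro x _
    rfl

end Reindex

section Main

variable {p : ℕ} [hp : Fact p.Prime] {K : Type} [Field K] [NumberField K]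
  [IsCyclotomicExtension {p} ℚ K]

/-- Reindexing a product over `1 ≤ a < p` by the Galois group. -/
theorem prod_Ico_eq_prod_gal {M : Type*} [CommMonoid M] (F : ℕ → M) :
    ∏ a ∈ Finset.Ico 1 p, F a = ∏ σ : K ≃ₐ[ℚ] K, F (kap p σ⁻¹) := by
  have : NeZero p := ⟨hp.out.ne_zero⟩
  rw [prod_Ico_eq_prod_units]
  symm
  exact Fintype.prod_equiv
    ((Equiv.inv (K ≃ₐ[ℚ] K)).trans (IsCyclotomicExtension.Rat.galEquivZMod p K).toEquiv)
    (fun σ => F (kap p σ⁻¹)) (fun x => F ((x : ZMod p).val)) (fun σ => rfl)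

/-- The exponents `a ^ (p - 3) % p` along the Galois group. -/
theorem cast_exponent (hp5 : 5 ≤ p) (σ : K ≃ₐ[ℚ] K) :
    (((kap p σ⁻¹) ^ (p - 3) % p : ℕ) : ZMod p) = ((kap p σ : ℕ) : ZMod p) ^ 2 := by
  have : NeZero p := ⟨hp.out.ne_zero⟩
  rw [ZMod.natCast_mod, Nat.cast_pow, kap_cast, kap_cast, map_inv]
  set x : (ZMod p)ˣ := IsCyclotomicExtension.Rat.galEquivZMod p K σ with hx
  have h1 : x ^ (p - 1) = 1 := ZMod.units_pow_card_sub_one_eq_one p x
  have h2 : (x⁻¹) ^ (p - 3) = x ^ 2 := by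
    have h3 : x ^ 2 * x ^ (p - 3) = 1 := by
      rw [← pow_add]
      have : 2 + (p - 3) = p - 1 := by omega
      rw [this, h1]
    rw [inv_pow]
    exact inv_eq_of_mul_eq_one_left h3
  rw [← Units.val_pow_eq_pow_val, ← Units.val_pow_eq_pow_val, h2]

/-- The sum of the exponents is divisible by `p`. -/
theorem sum_exponent_dvd (p : ℕ) [hp : Fact p.Prime] (hp5 : 5 ≤ p) :
    p ∣ ∑ a ∈ Finset.Ico 1 p, a ^ (p - 3) % p := by
  classical
  rw [← ZMod.natCast_eq_zero_iff, Nat.cast_sum, sum_Ico_eq_sum_units]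
  have h1 : ∀ x : (ZMod p)ˣ, (((x : ZMod p).val ^ (p - 3) % p : ℕ) : ZMod p) =
      (x : ZMod p) ^ (p - 3) := by
    intro x
    rw [ZMod.natCast_mod, Nat.cast_pow, ZMod.natCast_val, ZMod.cast_id]
  rw [Finset.sum_congr rfl fun x _ => h1 x, FiniteField.sum_pow_units, ZMod.card, if_neg]
  intro hdvd
  have := Nat.le_of_dvd (by omega) hdvd
  omega

end Main

/-- **C3, final step**: the Thaine element gives Thaine's relation. -/
theorem thaine_of_element (h : ThaineElementStatement) : ThaineStatement := by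
  intro p _ hp5 K _ _ _ ζ hζ φ hφ P hP hφP
  classical
  have hpne : NeZero p := ⟨(Fact.out : p.Prime).ne_zero⟩
  have hgal : IsGalois ℚ K := IsCyclotomicExtension.isGalois {p} ℚ K
  obtain ⟨s, γ, hγ, hH⟩ := h p hp5 K ζ hζ P hP
  obtain ⟨hPprime, hℓ, hne⟩ := hP
  have hP0 : (P : Ideal (𝓞 K)) ≠ ⊥ := nonZeroDivisors.coe_ne_zero P
  -- conjugates
  set conj : (K ≃ₐ[ℚ] K) → Ideal (𝓞 K) :=
    fun σ => Ideal.map (sigmaO K σ : 𝓞 K →+* 𝓞 K) (P : Ideal (𝓞 K)) with hconj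
  have hconj_prime : ∀ σ, (conj σ).IsPrime := fun σ =>
    Ideal.map_isPrime_of_equiv (sigmaO K σ)
  have hconj_ne : ∀ σ, conj σ ≠ ⊥ := fun σ h0 =>
    hP0 ((Ideal.map_eq_bot_iff_of_injective (f := (sigmaO K σ : 𝓞 K →+* 𝓞 K))
      (sigmaO K σ).injective).1 h0)
  have hconj_mem : ∀ σ, ((Ideal.absNorm (P : Ideal (𝓞 K)) : ℕ) : 𝓞 K) ∈ conj σ := fun σ => by
    have := Ideal.mem_map_of_mem (sigmaO K σ : 𝓞 K →+* 𝓞 K)
      (Ideal.absNorm_mem (P : Ideal (𝓞 K)))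
    simpa using this
  have hconj_inj : Function.Injective conj := map_sigmaO_injective hζ P hPprime hℓ hne
  set nF := normalizedFactors (Ideal.span {γ}) with hnF
  -- product formula
  have hprod0 := prod_phiI_factors φ hγ
  set g : Ideal (𝓞 K) → Multiplicative (ZMod p) := fun Q => phiI φ Q ^ nF.count Q with hg
  have hstep_a : ∏ Q ∈ nF.toFinset with ((Ideal.absNorm (P : Ideal (𝓞 K)) : ℕ) : 𝓞 K) ∈ Q, g Q
      = ∏ Q ∈ nF.toFinset, g Q := by
    apply Finset.prod_filter_of_ne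
    intro Q hQ hne1
    by_contra hmem
    apply hne1
    have hQF : Q ∈ nF := Multiset.mem_toFinset.mp hQ
    have hQprime : Q.IsPrime := Ideal.isPrime_of_prime (prime_of_normalized_factor Q hQF)
    have hQ0 : Q ≠ ⊥ := ne_zero_of_mem_normalizedFactors hQF
    obtain ⟨hm1, hm2⟩ := mem_pow_count hγ hQprime hQ0
    obtain ⟨k, hk⟩ := (hH Q hQprime hQ0 _ hm1 hm2).1 hmem
    change phiI φ Q ^ nF.count Q = 1
    rw [hnF, hk, pow_mul, pow_p_eq_one, one_pow]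
  have hstep_b : ∏ Q ∈ nF.toFinset with ((Ideal.absNorm (P : Ideal (𝓞 K)) : ℕ) : 𝓞 K) ∈ Q, g Q
      = ∏ Q ∈ Finset.univ.image conj, g Q := by
    apply Finset.prod_subset
    · intro Q hQ
      rw [Finset.mem_filter] at hQ
      obtain ⟨hQT, hmem⟩ := hQ
      have hQF : Q ∈ nF := Multiset.mem_toFinset.mp hQT
      have hQprime : Q.IsPrime := Ideal.isPrime_of_prime (prime_of_normalized_factor Q hQF)
      obtain ⟨σ, hσ⟩ := exists_map_sigmaO_eq (P : Ideal (𝓞 K)) Q hPprime hQprime hℓ hmem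
      exact Finset.mem_image.mpr ⟨σ, Finset.mem_univ _, hσ⟩
    · intro Q hQ hQn
      obtain ⟨σ, -, rfl⟩ := Finset.mem_image.mp hQ
      have hnot : conj σ ∉ nF := by
        intro hin
        exact hQn (Finset.mem_filter.mpr ⟨Multiset.mem_toFinset.mpr hin, hconj_mem σ⟩)
      change phiI φ (conj σ) ^ nF.count (conj σ) = 1
      rw [Multiset.count_eq_zero_of_notMem hnot, pow_zero]
  have hstep_c : ∏ Q ∈ Finset.univ.image conj, g Q = ∏ σ : K ≃ₐ[ℚ] K, g (conj σ) :=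
    Finset.prod_image (fun a _ b _ hab => hconj_inj hab)
  have hprod : ∏ σ : K ≃ₐ[ℚ] K, g (conj σ) = 1 := by
    rw [← hstep_c, ← hstep_b, hstep_a]
    exact hprod0
  -- exponent sum
  have hsum : p ∣ ∑ σ : K ≃ₐ[ℚ] K, kap p σ ^ 2 * nF.count (conj σ) := by
    apply dvd_of_pow_eq_one hφP
    rw [← Finset.prod_pow_eq_pow_sum, ← hprod]
    refine Finset.prod_congr rfl fun σ _ => ?_
    change _ = phiI φ (conj σ) ^ nF.count (conj σ)
    rw [hconj, phiI_map_sigma hζ φ hφ P σ, pow_mul]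
  -- congruences
  have hcong : ∀ σ : K ≃ₐ[ℚ] K,
      (1 - hζ.toInteger ^ kap p σ⁻¹) - (s : 𝓞 K) ^ nF.count (conj σ) ∈ (P : Ideal (𝓞 K)) := by
    intro σ
    obtain ⟨hm1, hm2⟩ := mem_pow_count hγ (hconj_prime σ) (hconj_ne σ)
    have h1 := (hH (conj σ) (hconj_prime σ) (hconj_ne σ) _ hm1 hm2).2 (hconj_mem σ)
    have h2 := Ideal.mem_map_of_mem (sigmaO K σ⁻¹ : 𝓞 K →+* 𝓞 K) h1
    rw [hconj] at h2
    simp only at h2
    rw [← map_sigmaO_mul, inv_mul_cancel, map_sigmaO_one] at h2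
    have h3 : (sigmaO K σ⁻¹ : 𝓞 K →+* 𝓞 K)
        ((1 - hζ.toInteger) - (s : 𝓞 K) ^ nF.count (conj σ)) =
        (1 - hζ.toInteger ^ kap p σ⁻¹) - (s : 𝓞 K) ^ nF.count (conj σ) := by
      rw [map_sub, map_sub, map_one, map_pow, map_intCast]
      congr 2
      exact sigmaO_toInteger σ⁻¹ hζ
    rw [← h3]
    exact h2
  -- the quotient field
  have hmax : (P : Ideal (𝓞 K)).IsMaximal := hPprime.isMaximal hP0
  let _ := Ideal.Quotient.field (P : Ideal (𝓞 K))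
  set q := Ideal.Quotient.mk (P : Ideal (𝓞 K)) with hq
  have hq_cong : ∀ σ : K ≃ₐ[ℚ] K,
      q (1 - hζ.toInteger ^ kap p σ⁻¹) = q (s : 𝓞 K) ^ nF.count (conj σ) := by
    intro σ
    rw [← map_pow, ← sub_eq_zero, ← map_sub, hq, Ideal.Quotient.eq_zero_iff_mem]
    exact hcong σ
  -- the product
  have hE1 : etaInt p hζ * (1 - hζ.toInteger) ^ (∑ a ∈ Finset.Ico 1 p, a ^ (p - 3) % p)
      = ∏ a ∈ Finset.Ico 1 p, (1 - hζ.toInteger ^ a) ^ (a ^ (p - 3) % p) := by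
    rw [etaInt, ← Finset.prod_pow_eq_pow_sum, ← Finset.prod_mul_distrib]
    refine Finset.prod_congr rfl fun a _ => ?_
    rw [← mul_pow, mul_comm, mul_neg_geom_sum]
  obtain ⟨u, hu⟩ := sum_exponent_dvd p hp5
  have hE2 : q (∏ a ∈ Finset.Ico 1 p, (1 - hζ.toInteger ^ a) ^ (a ^ (p - 3) % p))
      = q (s : 𝓞 K) ^
          (∑ σ : K ≃ₐ[ℚ] K, nF.count (conj σ) * ((kap p σ⁻¹) ^ (p - 3) % p)) := by
    rw [prod_Ico_eq_prod_gal (K := K), map_prod, ← Finset.prod_pow_eq_pow_sum]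
    refine Finset.prod_congr rfl fun σ _ => ?_
    rw [map_pow, hq_cong σ, pow_mul]
  have hsum2 : p ∣ ∑ σ : K ≃ₐ[ℚ] K, nF.count (conj σ) * ((kap p σ⁻¹) ^ (p - 3) % p) := by
    rw [← ZMod.natCast_eq_zero_iff] at hsum ⊢
    rw [Nat.cast_sum] at hsum ⊢
    rw [← hsum]
    refine Finset.sum_congr rfl fun σ _ => ?_
    rw [Nat.cast_mul, Nat.cast_mul, cast_exponent hp5 σ, Nat.cast_pow, mul_comm]
  obtain ⟨t, ht⟩ := hsum2
  -- conclusion
  have hw : q (1 - hζ.toInteger) ≠ 0 := by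
    rw [hq, Ne, Ideal.Quotient.eq_zero_iff_mem]
    exact one_sub_zeta_notMem hζ (P : Ideal (𝓞 K)) hPprime hℓ hne
  have hfin : q (etaInt p hζ) = (q (s : 𝓞 K) ^ t * (q (1 - hζ.toInteger) ^ u)⁻¹) ^ p := by
    have h1 : q (etaInt p hζ) * (q (1 - hζ.toInteger) ^ u) ^ p = (q (s : 𝓞 K) ^ t) ^ p := by
      rw [← pow_mul, ← pow_mul, mul_comm u p, mul_comm t p, ← hu, ← ht, ← hE2, ← hE1, map_mul,
        map_pow]
    rw [mul_pow, inv_pow, ← h1]
    field_simp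
  obtain ⟨x, hx⟩ := Ideal.Quotient.mk_surjective
    (q (s : 𝓞 K) ^ t * (q (1 - hζ.toInteger) ^ u)⁻¹)
  refine ⟨x, ?_⟩
  rw [← Ideal.Quotient.eq_zero_iff_mem, map_sub, map_pow, hx, ← hq, hfin, sub_self]

end Fermat.Agent.H87
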