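import Mathlib
import Fermat.Agent.H13.S14ThaineDefs
import Fermat.Agent.H87.S14_ThaineFinal

/-!
# P-S14, block C3: the K-side `ThaineDatumStatement → ThaineStatement` (helper87)
-/

set_option autoImplicit false

open scoped NumberField nonZeroDivisors
open Fermat.Agent.H13

namespace Fermat.Agent.H87

/-- Uniqueness of the exponent `r` with `x ∈ Q ^ r`, `x ∉ Q ^ (r + 1)`. -/
theorem pow_exponent_unique {R : Type*} [CommRing R] (Q : Ideal R) (x : R) {a b : ℕ}
    (ha : x ∈ Q ^ a) (ha' : x ∉ Q ^ (a + 1)) (hb : x ∈ Q ^ b) (hb' : x ∉ Q ^ (b + 1)) :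
    a = b := by
  rcases Nat.lt_trichotomy a b with h | h | h
  · exact absurd (Ideal.pow_le_pow_right (Nat.succ_le_of_lt h) hb) ha'
  · exact h
  · exact absurd (Ideal.pow_le_pow_right (Nat.succ_le_of_lt h) ha) hb'

theorem map_sigmaO_coe {K : Type} [Field K] [NumberField K] (σ : K ≃ₐ[ℚ] K)
    (I : Ideal (𝓞 K)) :
    Ideal.map (sigmaO K σ : 𝓞 K →+* 𝓞 K) I = Ideal.map (sigmaO K σ) I := rfl

/-- The Thaine datum (F-side target of `helper13`) gives the Thaine element. -/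
theorem thaineElement_of_datum (h : ThaineDatumStatement) : ThaineElementStatement := by
  intro p _ hp5 K _ _ _ ζ hζ P hP
  have hgal : IsGalois ℚ K := IsCyclotomicExtension.isGalois {p} ℚ K
  obtain ⟨N, s, r, hN, h1, h2, h3⟩ := h p hp5 K ζ hζ P hP
  obtain ⟨hPprime, hℓ, hne⟩ := hP
  refine ⟨s, N, hN, fun Q hQ hQ0 r' hr hr' => ⟨fun hnot => ?_, fun hmem => ?_⟩⟩
  · have hQne : ∀ σ : K ≃ₐ[ℚ] K, Q ≠ Ideal.map (sigmaO K σ) (P : Ideal (𝓞 K)) := by
      rintro σ rfl
      apply hnot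
      have := Ideal.mem_map_of_mem (sigmaO K σ : 𝓞 K →+* 𝓞 K)
        (Ideal.absNorm_mem (P : Ideal (𝓞 K)))
      rw [map_sigmaO_coe] at this
      simpa using this
    obtain ⟨n, hn, hn'⟩ := h1 Q hQ hQ0 hQne
    rw [pow_exponent_unique Q N hr hr' hn hn']
    exact dvd_mul_right p n
  · obtain ⟨σ, hσ⟩ := exists_map_sigmaO_eq (P : Ideal (𝓞 K)) Q hPprime hQ hℓ hmem
    rw [map_sigmaO_coe] at hσ
    subst hσ
    rw [pow_exponent_unique _ N hr hr' (h2 σ).1 (h2 σ).2]
    exact h3 σ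

/-- **C3, K-side**: the Thaine datum implies Thaine's relation. -/
theorem thaine_of_datum (h : ThaineDatumStatement) : ThaineStatement :=
  thaine_of_element (thaineElement_of_datum h)

end Fermat.Agent.H87
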