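import Mathlib
import Fermat.Agent.H21.CocDefs
import Fermat.Agent.H1.S22_periodic_act_diag
import Fermat.Agent.H2.S22_exists_isEI
import Fermat.Agent.H65.S22_exp_decay_slash
import Fermat.Agent.H41.S22_HalfStrip

/-!
# HF-E3: polynomial growth of the diagonal restriction of an invariant Eichler integral
(helper87, for S22)
-/

set_option autoImplicit false

noncomputable section

namespace Fermat.Agent.H87

open UpperHalfPlane CongruenceSubgroup Matrix.SpecialLinearGroup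
open scoped MatrixGroups ModularForm Manifold
open Fermat.Agent.H21

/-- Polynomial growth on a half-strip of a sum `∑ c_j(z) z^j` with bounded coefficients. -/
theorem strip_sum_bound (w : ℕ) (c : ℕ → ℂ → ℂ) (K B M : ℝ) (hM : 0 ≤ M)
    (hc : ∀ j ∈ Finset.range (w + 1), ∀ z : ℂ, B ≤ z.im → |z.re| ≤ M → ‖c j z‖ ≤ K)
    (z : ℂ) (hz0 : 0 ≤ z.im) (hz : B ≤ z.im) (hre : |z.re| ≤ M) :
    ‖∑ j ∈ Finset.range (w + 1), c j z * z ^ j * (1 : ℂ) ^ (w - j)‖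
      ≤ ((w + 1 : ℕ) : ℝ) * K * (M + 1) ^ w * (1 + z.im) ^ w := by
  have hK : 0 ≤ K := (norm_nonneg _).trans (hc 0 (by simp) z hz hre)
  set R : ℝ := (M + 1) * (1 + z.im) with hR
  have hR1 : 1 ≤ R := by
    have h1 : (1 : ℝ) ≤ M + 1 := by linarith
    have h2 : (1 : ℝ) ≤ 1 + z.im := by linarith
    calc (1 : ℝ) = 1 * 1 := by ring
      _ ≤ (M + 1) * (1 + z.im) := mul_le_mul h1 h2 zero_le_one (by linarith)
  have hzR : ‖z‖ ≤ R := by
    have h1 : ‖z‖ ≤ |z.re| + |z.im| := Complex.norm_le_abs_re_add_abs_im z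
    have h2 : |z.im| = z.im := abs_of_nonneg hz0
    have h3 : 0 ≤ M * z.im := mul_nonneg hM hz0
    rw [hR]
    nlinarith
  have hterm : ∀ j ∈ Finset.range (w + 1), ‖c j z * z ^ j * (1 : ℂ) ^ (w - j)‖ ≤ K * R ^ w := by
    intro j hj
    have hjw : j ≤ w := Nat.lt_succ_iff.mp (Finset.mem_range.mp hj)
    rw [one_pow, mul_one, norm_mul, norm_pow]
    have h1 : ‖z‖ ^ j ≤ R ^ j := pow_le_pow_left₀ (norm_nonneg _) hzR j
    have h2 : R ^ j ≤ R ^ w := pow_le_pow_right₀ hR1 hjw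
    exact mul_le_mul (hc j hj z hz hre) (h1.trans h2) (by positivity) hK
  calc ‖∑ j ∈ Finset.range (w + 1), c j z * z ^ j * (1 : ℂ) ^ (w - j)‖
      ≤ ∑ j ∈ Finset.range (w + 1), ‖c j z * z ^ j * (1 : ℂ) ^ (w - j)‖ := norm_sum_le _ _
    _ ≤ ∑ _j ∈ Finset.range (w + 1), K * R ^ w := Finset.sum_le_sum hterm
    _ = ((w + 1 : ℕ) : ℝ) * K * (M + 1) ^ w * (1 + z.im) ^ w := by
        rw [Finset.sum_const, Finset.card_range, nsmul_eq_mul, hR, mul_pow]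
        ring

/-- Bound for the derivative of the coefficient functions. -/
theorem coeff_deriv_bound (w j : ℕ) (F : ℍ → ℂ) (a C B : ℝ)
    (hF : ∀ τ : ℍ, B ≤ τ.im → ‖F τ‖ ≤ C * Real.exp (-a * τ.im))
    (z : ℂ) (hz : max B 1 ≤ z.im) :
    ‖F (ofComplex z) * ((w.choose j : ℂ) * (-z) ^ (w - j))‖
      ≤ (C * (w.choose j : ℝ)) * Real.exp (-a * z.im) * (1 + ‖z‖) ^ w := by
  have hzpos : 0 < z.im := lt_of_lt_of_le zero_lt_one ((le_max_right _ _).trans hz)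
  have hzB : B ≤ z.im := (le_max_left _ _).trans hz
  have him : (ofComplex z).im = z.im := by
    rw [ofComplex_apply_of_im_pos hzpos]
    rfl
  have h1 : ‖F (ofComplex z)‖ ≤ C * Real.exp (-a * z.im) := by
    have := hF (ofComplex z) (by rw [him]; exact hzB)
    rwa [him] at this
  have h2 : ‖((w.choose j : ℂ) * (-z) ^ (w - j))‖ ≤ (w.choose j : ℝ) * (1 + ‖z‖) ^ w := by
    rw [norm_mul, norm_pow, norm_neg, Complex.norm_natCast]
    have h3 : ‖z‖ ^ (w - j) ≤ (1 + ‖z‖) ^ (w - j) :=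
      pow_le_pow_left₀ (norm_nonneg _) (by linarith) _
    have h4 : (1 + ‖z‖) ^ (w - j) ≤ (1 + ‖z‖) ^ w :=
      pow_le_pow_right₀ (by linarith [norm_nonneg z]) (Nat.sub_le _ _)
    exact mul_le_mul_of_nonneg_left (h3.trans h4) (Nat.cast_nonneg _)
  calc ‖F (ofComplex z) * ((w.choose j : ℂ) * (-z) ^ (w - j))‖
      = ‖F (ofComplex z)‖ * ‖((w.choose j : ℂ) * (-z) ^ (w - j))‖ := norm_mul _ _
    _ ≤ (C * Real.exp (-a * z.im)) * ((w.choose j : ℝ) * (1 + ‖z‖) ^ w) :=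
        mul_le_mul h1 h2 (norm_nonneg _) ((norm_nonneg _).trans h1)
    _ = (C * (w.choose j : ℝ)) * Real.exp (-a * z.im) * (1 + ‖z‖) ^ w := by ring

/-- Translating into the strip `|Re| ≤ N` by a multiple of `N`. -/
theorem exists_shift_into_strip (N : ℕ) [NeZero N] (τ : ℍ) :
    ∃ n : ℤ, ((ModularGroup.T ^ ((N : ℤ) * n)) • τ : ℍ).im = τ.im ∧
      |((ModularGroup.T ^ ((N : ℤ) * n)) • τ : ℍ).re| ≤ (N : ℝ) := by
  have hN : (0 : ℝ) < (N : ℝ) := by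
    have := NeZero.ne N
    positivity
  refine ⟨-⌊τ.re / (N : ℝ)⌋, ?_, ?_⟩
  · rw [modular_T_zpow_smul, vadd_im]
  · rw [modular_T_zpow_smul, vadd_re]
    have h1 : (⌊τ.re / (N : ℝ)⌋ : ℝ) ≤ τ.re / (N : ℝ) := Int.floor_le _
    have h2 : τ.re / (N : ℝ) < (⌊τ.re / (N : ℝ)⌋ : ℝ) + 1 := Int.lt_floor_add_one _
    rw [le_div_iff₀ hN] at h1
    rw [div_lt_iff₀ hN] at h2
    push_cast
    rw [abs_le]
    constructor <;> nlinarith

/-- **HF-E3.** Polynomial growth at every cusp of the diagonal restriction of a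
`Γ₀(N)`-invariant Eichler integral. -/
theorem growth_at_cusp (N : ℕ) [NeZero N] (w : ℕ) (f : CuspForm (Gamma0 N) ((w : ℤ) + 2))
    (I : ℍ → ℂ → ℂ → ℂ) (hI : IsEI w f I) (hP : ∀ τ, I τ ∈ poly ℂ w)
    (hinv : ∀ γ ∈ Gamma0 N, act (mapGL ℝ γ) I = I) (γ : SL(2, ℤ)) :
    ∃ C B : ℝ, ∀ τ : ℍ, B ≤ τ.im → ‖act (mapGL ℝ γ) I τ (τ : ℂ) 1‖ ≤ C * (1 + τ.im) ^ w := by
  have hdet : 0 < (mapGL ℝ γ : GL (Fin 2) ℝ).det.val := by simp
  have hJ : IsEI w ((⇑f) ∣[(w : ℤ) + 2] (mapGL ℝ γ)) (act (mapGL ℝ γ) I) := hI.slash hdet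
  have hJP : ∀ τ, act (mapGL ℝ γ) I τ ∈ poly ℂ w := fun τ =>
    subst_mem_poly (hasEntriesIn_complex _) (hP _)
  have hFd : MDiff ((⇑f) ∣[(w : ℤ) + 2] (mapGL ℝ γ)) :=
    MDifferentiable.slash (ModularFormClass.holo f) _ _
  obtain ⟨c, hcder, hcsum⟩ := Fermat.Agent.H2.isEI_exists_coeff w _ hFd _ hJ hJP
  obtain ⟨a, ha, C0, B0, hdecay⟩ := Fermat.Agent.H65.exp_decay_slash N ((w : ℤ) + 2) f γ
  have hB : (0 : ℝ) < max B0 1 := lt_of_lt_of_le zero_lt_one (le_max_right _ _)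
  have hKex : ∀ j : ℕ, ∃ K : ℝ, ∀ z : ℂ, max B0 1 ≤ z.im → |z.re| ≤ (N : ℝ) → ‖c j z‖ ≤ K :=
    fun j => Fermat.Agent.H41.bounded_on_halfstrip (c j) _ (max B0 1) (N : ℝ) a
      (C0 * (w.choose j : ℝ)) w hB ha (hcder j)
      (fun z hz => coeff_deriv_bound w j _ a C0 B0 hdecay z hz)
  choose K hK using hKex
  set K' : ℝ := ∑ j ∈ Finset.range (w + 1), |K j| with hK'
  have hKle : ∀ j ∈ Finset.range (w + 1), K j ≤ K' := fun j hj =>
    (le_abs_self _).trans (Finset.single_le_sum (f := fun j => |K j|)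
      (fun i _ => abs_nonneg _) hj)
  refine ⟨((w + 1 : ℕ) : ℝ) * K' * ((N : ℝ) + 1) ^ w, max B0 1, fun τ hτ => ?_⟩
  obtain ⟨n, him, hre⟩ := exists_shift_into_strip N τ
  rw [← Fermat.Agent.H1.periodic_act_diag N w I hinv γ τ n, hcsum]
  set τ' : ℍ := (ModularGroup.T ^ ((N : ℤ) * n)) • τ with hτ'
  have hb := strip_sum_bound w c K' (max B0 1) (N : ℝ) (Nat.cast_nonneg _)
    (fun j hj z hz hzre => (hK j z hz hzre).trans (hKle j hj)) (τ' : ℂ)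
    (le_of_lt τ'.im_pos) (by rw [UpperHalfPlane.coe_im, him]; exact hτ)
    (by rw [UpperHalfPlane.coe_re]; exact hre)
  rw [UpperHalfPlane.coe_im, him] at hb
  exact hb

end Fermat.Agent.H87
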